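import Mathlib
import Fermat.Prelude.Def_AlgebraicCurve_DivisorPushPull
import Fermat.Agent.S24.FF.Basic

/-!
# [DESC-A] Abstract descent of torsion divisor classes along a finite extension having a place
with large ramification index

`F ≤ F'` function fields over `K`, `w` a place of `F'` with `[F':F] < 2 e(w|F)`.  Then an `m`-th root
(in `F'`) of an element of `F` whose order at `w|F` is divisible by `m` lies in `F`; consequently
a divisor `D` of `F` with `m • D` principal and `pullback D` principal is principal.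
-/

set_option autoImplicit false
noncomputable section
open AlgebraicCurve Polynomial IntermediateField
open Fermat.Agent.S24

namespace Fermat.Agent.RED.Desc

section Cl
variable {K F : Type*} [Field K] [Field F] [Algebra K F] (w : Place K F)

/-- `x ∈ 𝔪_w ^ M`. -/
def Cl (M : ℤ) (x : F) : Prop := x = 0 ∨ M ≤ w.ord x

variable {w}

theorem Cl.zero (M : ℤ) : Cl w M 0 := Or.inl rfl

theorem Cl.self (x : F) : Cl w (w.ord x) x := Or.inr le_rfl

theorem Cl.mono {M M' : ℤ} {x : F} (h : Cl w M x) (hM : M' ≤ M) : Cl w M' x :=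
  h.imp id (fun h => hM.trans h)

theorem Cl.add {M : ℤ} {x y : F} (hx : Cl w M x) (hy : Cl w M y) : Cl w M (x + y) := by
  rcases eq_or_ne x 0 with rfl | hx0
  · simpa using hy
  rcases eq_or_ne y 0 with rfl | hy0
  · simpa using hx
  rcases eq_or_ne (x + y) 0 with h0 | h0
  · exact Or.inl h0
  · right
    have h1 := Place.ord_add_ge w hx0 hy0 h0
    have h2 : M ≤ w.ord x := hx.resolve_left hx0
    have h3 : M ≤ w.ord y := hy.resolve_left hy0
    exact (le_min h2 h3).trans h1

theorem Cl.neg {M : ℤ} {x : F} (hx : Cl w M x) : Cl w M (-x) := by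
  rcases hx with rfl | h
  · simp [Cl.zero]
  · right; rwa [Place.ord_neg]

theorem Cl.sub {M : ℤ} {x y : F} (hx : Cl w M x) (hy : Cl w M y) : Cl w M (x - y) := by
  rw [sub_eq_add_neg]; exact hx.add hy.neg

theorem Cl.mul {M C : ℤ} {x z : F} (hx : Cl w M x) (hz : Cl w C z) : Cl w (M + C) (x * z) := by
  rcases eq_or_ne x 0 with rfl | hx0
  · simp [Cl.zero]
  rcases eq_or_ne z 0 with rfl | hz0
  · simp [Cl.zero]
  right
  rw [w.ord_mul hx0 hz0]
  exact add_le_add (hx.resolve_left hx0) (hz.resolve_left hz0)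

theorem Cl.sum {ι : Type*} (s : Finset ι) {M : ℤ} (x : ι → F) (h : ∀ i ∈ s, Cl w M (x i)) :
    Cl w M (∑ i ∈ s, x i) := by
  classical
  induction s using Finset.induction_on with
  | empty => simp [Cl.zero]
  | insert a s ha ih =>
    rw [Finset.sum_insert ha]
    exact (h a (Finset.mem_insert_self a s)).add
      (ih fun i hi => h i (Finset.mem_insert_of_mem hi))

theorem Cl.not_of_ne_zero {x : F} (hx : x ≠ 0) : ¬ Cl w (w.ord x + 1) x := by
  rintro (h | h)
  · exact hx h
  · omega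

theorem Cl.of_mem {x : F} (hx : x ∈ w.toValuationSubring) : Cl w 0 x :=
  Or.inr (Place.ord_nonneg_of_mem w hx)

/-- A sum of terms `b i * π ^ i` (`i < e`) with `e ∣ ord (b i)` and `ord π = 1` vanishes only
trivially. -/
theorem eq_zero_of_sum_eq_zero {e : ℕ} {π : F} (hπ : w.ord π = 1) (b : Fin e → F)
    (hb : ∀ i, b i ≠ 0 → (e : ℤ) ∣ w.ord (b i)) (hsum : ∑ i, b i * π ^ (i : ℕ) = 0) :
    ∀ i, b i = 0 := by
  classical
  by_contra hne
  push Not at hne
  have hπ0 : π ≠ 0 := by
    rintro rfl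
    simp at hπ
  set s : Finset (Fin e) := Finset.univ.filter (fun i => b i ≠ 0) with hs
  have hsne : s.Nonempty := by
    obtain ⟨i, hi⟩ := hne
    exact ⟨i, by simp [hs, hi]⟩
  have hord : ∀ i, b i ≠ 0 → w.ord (b i * π ^ (i : ℕ)) = w.ord (b i) + (i : ℕ) := by
    intro i hi
    rw [w.ord_mul hi (pow_ne_zero _ hπ0), Place.ord_pow, hπ, mul_one]
  obtain ⟨i₀, hi₀s, hmin⟩ := Finset.exists_min_image s (fun i => w.ord (b i * π ^ (i : ℕ))) hsne
  have hi₀ : b i₀ ≠ 0 := by simpa [hs] using hi₀s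
  set μ := w.ord (b i₀ * π ^ (i₀ : ℕ)) with hμ
  have hrest : Cl w (μ + 1) (∑ i ∈ Finset.univ.erase i₀, b i * π ^ (i : ℕ)) := by
    refine Cl.sum _ _ fun i hi => ?_
    have hii : i ≠ i₀ := (Finset.mem_erase.mp hi).1
    by_cases hbi : b i = 0
    · left; simp [hbi]
    · right
      have h1 : μ ≤ w.ord (b i * π ^ (i : ℕ)) := hmin i (by simp [hs, hbi])
      have h2 : μ ≠ w.ord (b i * π ^ (i : ℕ)) := by
        rw [hμ, hord i hbi, hord i₀ hi₀]
        intro heq
        obtain ⟨c, hc⟩ := hb i hbi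
        obtain ⟨c₀, hc₀⟩ := hb i₀ hi₀
        rw [hc, hc₀] at heq
        have h3 : ((i₀ : ℕ) : ℤ) - ((i : ℕ) : ℤ) = e * (c - c₀) := by linarith
        have h4 : ((i₀ : ℕ) : ℤ) < e := by exact_mod_cast i₀.2
        have h5 : ((i : ℕ) : ℤ) < e := by exact_mod_cast i.2
        have h6 : (0 : ℤ) ≤ ((i₀ : ℕ) : ℤ) := Int.natCast_nonneg _
        have h7 : (0 : ℤ) ≤ ((i : ℕ) : ℤ) := Int.natCast_nonneg _
        have h8 : c - c₀ = 0 := by
          by_contra hc0
          rcases lt_or_gt_of_ne hc0 with h | h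
          · have : (e : ℤ) * (c - c₀) ≤ e * (-1) :=
              mul_le_mul_of_nonneg_left (by omega) (by omega)
            omega
          · have : (e : ℤ) * 1 ≤ e * (c - c₀) :=
              mul_le_mul_of_nonneg_left (by omega) (by omega)
            omega
        rw [h8, mul_zero] at h3
        apply hii
        apply Fin.ext
        omega
      omega
  have hx0 : b i₀ * π ^ (i₀ : ℕ) ≠ 0 := mul_ne_zero hi₀ (pow_ne_zero _ hπ0)
  have hsplit : b i₀ * π ^ (i₀ : ℕ) = -(∑ i ∈ Finset.univ.erase i₀, b i * π ^ (i : ℕ)) := by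
    have := Finset.add_sum_erase Finset.univ (fun i => b i * π ^ (i : ℕ)) (Finset.mem_univ i₀)
    rw [hsum] at this
    exact eq_neg_of_add_eq_zero_left this
  exact Cl.not_of_ne_zero hx0 (hsplit ▸ hrest.neg)

end Cl

section closure
variable {K F F' : Type*} [Field K] [Field F] [Field F'] [Algebra K F'] [Algebra F F']
  (w : Place K F')

/-- The `w`-adic closure of `F` in `F'`. -/
def wClosure : Subalgebra F F' where
  carrier := {b | ∀ M : ℤ, ∃ b₀ : F, Cl w M (b - algebraMap F F' b₀)}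
  mul_mem' := by
    intro b b' hb hb' M
    obtain ⟨b₀', h'⟩ := hb' (M - w.ord b)
    have hC : Cl w (min (w.ord b') (M - w.ord b)) (algebraMap F F' b₀') := by
      have h1 : algebraMap F F' b₀' = b' - (b' - algebraMap F F' b₀') := by ring
      rw [h1]
      exact ((Cl.self b').mono (min_le_left _ _)).sub (h'.mono (min_le_right _ _))
    obtain ⟨b₀, h⟩ := hb (M - min (w.ord b') (M - w.ord b))
    refine ⟨b₀ * b₀', ?_⟩
    have h2 : b * b' - algebraMap F F' (b₀ * b₀') =
        (b' - algebraMap F F' b₀') * b + (b - algebraMap F F' b₀) * algebraMap F F' b₀' := by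
      rw [map_mul]; ring
    rw [h2]
    refine Cl.add ?_ ?_
    · exact (h'.mul (Cl.self b)).mono (by omega)
    · exact (h.mul hC).mono (by omega)
  add_mem' := by
    intro b b' hb hb' M
    obtain ⟨b₀, h⟩ := hb M
    obtain ⟨b₀', h'⟩ := hb' M
    refine ⟨b₀ + b₀', ?_⟩
    have h2 : b + b' - algebraMap F F' (b₀ + b₀') =
        (b - algebraMap F F' b₀) + (b' - algebraMap F F' b₀') := by
      rw [map_add]; ring
    rw [h2]
    exact h.add h'
  algebraMap_mem' := fun r M => ⟨r, by simp [Cl.zero]⟩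

theorem mem_wClosure {b : F'} :
    b ∈ wClosure (F := F) w ↔ ∀ M : ℤ, ∃ b₀ : F, Cl w M (b - algebraMap F F' b₀) := Iff.rfl

variable [Algebra.IsIntegral F F']

theorem dvd_ord_of_mem_wClosure {b : F'} (hb : b ∈ wClosure (F := F) w) (hb0 : b ≠ 0) :
    (w.ramificationIndex F : ℤ) ∣ w.ord b := by
  obtain ⟨b₀, h⟩ := hb (w.ord b + 1)
  by_cases hd0 : b - algebraMap F F' b₀ = 0
  · have hb' : b = algebraMap F F' b₀ := sub_eq_zero.mp hd0
    have hb₀ : b₀ ≠ 0 := by
      rintro rfl
      exact hb0 (by simpa using hb')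
    rw [hb']
    exact w.ramificationIndex_dvd_ord hb₀
  · have h := h.resolve_left hd0
    have h1 : algebraMap F F' b₀ = b + -(b - algebraMap F F' b₀) := by ring
    have h2 : w.ord (algebraMap F F' b₀) = w.ord b := by
      rw [h1]
      refine Place.ord_add_eq_of_lt w hb0 (neg_ne_zero.mpr hd0) ?_
      rw [Place.ord_neg]; omega
    have hb₀ : b₀ ≠ 0 := by
      rintro rfl
      rw [map_zero, sub_zero] at h
      omega
    rw [← h2]
    exact w.ramificationIndex_dvd_ord hb₀

end closure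

section newton
variable {K F F' : Type*} [Field K] [Field F] [Field F'] [Algebra K F'] [Algebra F F']
  [Algebra K F] [IsScalarTower K F F'] (w : Place K F')

/-- One Newton step. -/
theorem newton_step {m : ℕ} (hm : (m : K) ≠ 0) {y : F'} (hy0 : y ≠ 0) (hy : w.ord y = 0) {u : F}
    (hyu : y ^ m = algebraMap F F' u) (n : ℕ) (Y : F)
    (h : Cl w ((n : ℤ) + 1) (algebraMap F F' Y - y)) :
    ∃ Y' : F, Cl w ((n : ℤ) + 2) (algebraMap F F' Y' - y) := by
  by_cases hδ : algebraMap F F' Y - y = 0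
  · exact ⟨Y, Or.inl hδ⟩
  have hδord : (n : ℤ) + 1 ≤ w.ord (algebraMap F F' Y - y) := h.resolve_left hδ
  set δ := algebraMap F F' Y - y with hδdef
  have hYeq : algebraMap F F' Y = y + δ := by rw [hδdef]; ring
  have hYord : w.ord (algebraMap F F' Y) = 0 := by
    rw [hYeq, Place.ord_add_eq_of_lt w hy0 hδ (by omega), hy]
  have hY0' : algebraMap F F' Y ≠ 0 := by
    intro h0
    have : y = -δ := by
      rw [hδdef, h0]; ring
    rw [this, Place.ord_neg] at hy
    omega
  have hY0 : Y ≠ 0 := by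
    rintro rfl
    exact hY0' (map_zero _)
  have hYmem : algebraMap F F' Y ∈ w.toValuationSubring :=
    (Place.mem_iff_ord_nonneg w hY0').2 hYord.ge
  have hδmem : δ ∈ w.toValuationSubring := (Place.mem_iff_ord_nonneg w hδ).2 (by omega)
  obtain ⟨k, hk⟩ := Polynomial.binomExpansion (X ^ m : (w.toValuationSubring)[X])
    ⟨algebraMap F F' Y, hYmem⟩ (-⟨δ, hδmem⟩)
  have hk' : y ^ m = algebraMap F F' Y ^ m + (m : F') * algebraMap F F' Y ^ (m - 1) * (-δ)
      + (k : F') * (-δ) ^ 2 := by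
    have := congrArg (Subtype.val) hk
    simp only [eval_pow, eval_X, derivative_X_pow, eval_mul, map_natCast,
      eval_natCast] at this
    push_cast at this
    have h2 : algebraMap F F' Y + -δ = y := by rw [hδdef]; ring
    rw [h2] at this
    exact this
  have hmF : (m : F) ≠ 0 := by
    have : (m : F) = algebraMap K F (m : K) := by simp
    rw [this]
    exact (map_ne_zero_iff _ (algebraMap K F).injective).mpr hm
  have hmF' : (m : F') ≠ 0 := by
    have : (m : F') = algebraMap K F' (m : K) := by simp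
    rw [this]
    exact (map_ne_zero_iff _ (algebraMap K F').injective).mpr hm
  have hmord : w.ord (m : F') = 0 := by
    have : (m : F') = algebraMap K F' (m : K) := by simp
    rw [this]
    exact Place.ord_algebraMap w _
  refine ⟨Y - (Y ^ m - u) / ((m : F) * Y ^ (m - 1)), ?_⟩
  set D : F' := (m : F') * algebraMap F F' Y ^ (m - 1) with hD
  have hD0 : D ≠ 0 := mul_ne_zero hmF' (pow_ne_zero _ hY0')
  have hDord : w.ord D = 0 := by
    rw [hD, w.ord_mul hmF' (pow_ne_zero _ hY0'), hmord, Place.ord_pow, hYord]; simp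
  have hfin : algebraMap F F' (Y - (Y ^ m - u) / ((m : F) * Y ^ (m - 1))) - y =
      (k : F') * δ * δ * D⁻¹ := by
    rw [map_sub, map_div₀, map_sub, map_pow, map_mul, map_pow, map_natCast, ← hyu, hk', ← hD]
    field_simp
    rw [hδdef]
    ring
  rw [hfin]
  have hDinv : Cl w 0 D⁻¹ := Or.inr (by rw [w.ord_inv, hDord]; simp)
  have hδcl : Cl w ((n : ℤ) + 1) δ := Or.inr hδord
  exact ((((Cl.of_mem k.2).mul hδcl).mul hδcl).mul hDinv).mono (by omega)

/-- `y` is a `w`-adic limit of elements of `F`. -/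
theorem mem_wClosure_of_pow {m : ℕ} (hm : (m : K) ≠ 0) {y : F'} (hy0 : y ≠ 0) (hy : w.ord y = 0)
    {u : F} (hyu : y ^ m = algebraMap F F' u)
    (hres : ∃ c : K, y = algebraMap K F' c ∨ 0 < w.ord (y - algebraMap K F' c)) :
    y ∈ wClosure (F := F) w := by
  have key : ∀ n : ℕ, ∃ Y : F, Cl w ((n : ℤ) + 1) (algebraMap F F' Y - y) := by
    intro n
    induction n with
    | zero =>
      obtain ⟨c, hc⟩ := hres
      refine ⟨algebraMap K F c, ?_⟩
      rw [← IsScalarTower.algebraMap_apply]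
      rcases hc with hc | hc
      · left; rw [hc]; ring
      · right
        have : algebraMap K F' c - y = -(y - algebraMap K F' c) := by ring
        rw [this, Place.ord_neg]
        push_cast
        omega
    | succ n ih =>
      obtain ⟨Y, hY⟩ := ih
      obtain ⟨Y', hY'⟩ := newton_step w hm hy0 hy hyu n Y hY
      exact ⟨Y', hY'.mono (by push_cast; omega)⟩
  intro M
  obtain ⟨Y, hY⟩ := key M.toNat
  refine ⟨Y, ?_⟩
  have : y - algebraMap F F' Y = -(algebraMap F F' Y - y) := by ring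
  rw [this]
  exact hY.neg.mono (by omega)

end newton

section main
variable {K F F' : Type*} [Field K] [Field F] [Field F'] [Algebra K F'] [Algebra F F']
  [Algebra K F] [IsScalarTower K F F'] [FiniteDimensional F F'] (w : Place K F')

/-- If `y` lies in the `w`-adic closure of `F` and `[F':F] < 2 e(w|F)`, then `y ∈ F`. -/
theorem mem_range_of_mem_wClosure (he : Module.finrank F F' < 2 * w.ramificationIndex F) {y : F'}
    (hy : y ∈ wClosure (F := F) w) : y ∈ Set.range (algebraMap F F') := by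
  set e := w.ramificationIndex F with hedef
  obtain ⟨π, hπ0, -, hπ⟩ := Place.exists_uniformizer w
  have hint : IsIntegral F y := Algebra.IsIntegral.isIntegral y
  have hE : ∀ b ∈ F⟮y⟯, b ∈ wClosure (F := F) w := by
    intro b hb
    have h1 : b ∈ F⟮y⟯.toSubalgebra := hb
    rw [IntermediateField.adjoin_simple_toSubalgebra_of_isAlgebraic hint.isAlgebraic] at h1
    exact (Algebra.adjoin_le (Set.singleton_subset_iff.mpr hy)) h1
  have hli : LinearIndependent F⟮y⟯ (fun i : Fin e => π ^ (i : ℕ)) := by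
    rw [Fintype.linearIndependent_iff]
    intro g hg i
    have h1 : ∑ i : Fin e, ((g i : F⟮y⟯) : F') * π ^ (i : ℕ) = 0 := by
      rw [← hg]
      exact Finset.sum_congr rfl fun i _ => rfl
    have h2 := eq_zero_of_sum_eq_zero (w := w) hπ (fun i => ((g i : F⟮y⟯) : F'))
      (fun i hi => dvd_ord_of_mem_wClosure w (hE _ (g i).2) hi) h1 i
    exact Subtype.ext h2
  have h1 : e ≤ Module.finrank F⟮y⟯ F' := by
    have := hli.fintype_card_le_finrank
    simpa using this
  have h2 : Module.finrank F F⟮y⟯ * Module.finrank F⟮y⟯ F' = Module.finrank F F' :=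
    Module.finrank_mul_finrank F F⟮y⟯ F'
  have h3 : 0 < Module.finrank F F⟮y⟯ := Module.finrank_pos
  have h4 : Module.finrank F F⟮y⟯ = 1 := by
    by_contra hne
    have h5 : 2 ≤ Module.finrank F F⟮y⟯ := by omega
    have h6 : 2 * Module.finrank F⟮y⟯ F' ≤ Module.finrank F F' := by
      rw [← h2]
      exact Nat.mul_le_mul_right _ h5
    omega
  have h5 : F⟮y⟯ = ⊥ := IntermediateField.finrank_eq_one_iff.mp h4
  have h6 : y ∈ (⊥ : IntermediateField F F') := h5 ▸ IntermediateField.mem_adjoin_simple_self F y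
  exact IntermediateField.mem_bot.mp h6

/-- **(DESC-A)(i)**: an `m`-th root in `F'` of an element of `F` whose order at `w|F` is divisible by
`m` lies in `F`. -/
theorem mem_range_of_pow_mem (he : Module.finrank F F' < 2 * w.ramificationIndex F)
    (hres : ∀ z ∈ w.toValuationSubring,
      ∃ c : K, z = algebraMap K F' c ∨ 0 < w.ord (z - algebraMap K F' c))
    {m : ℕ} (hm : (m : K) ≠ 0) {y : F'} {f : F} (hyf : y ^ m = algebraMap F F' f)
    (hdiv : (m : ℤ) ∣ (w.restrict F).ord f) : y ∈ Set.range (algebraMap F F') := by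
  rcases eq_or_ne y 0 with rfl | hy0
  · exact ⟨0, map_zero _⟩
  have hm0 : m ≠ 0 := by
    rintro rfl
    simp at hm
  obtain ⟨t, ht0, ht⟩ := w.exists_ord_eq_ramificationIndex (F := F)
  obtain ⟨a, ha⟩ := hdiv
  have ht0' : algebraMap F F' t ≠ 0 := by simpa using ht0
  set y₁ : F' := y * (algebraMap F F' t ^ a)⁻¹ with hy₁
  have hy₁0 : y₁ ≠ 0 := mul_ne_zero hy0 (inv_ne_zero (zpow_ne_zero _ ht0'))
  have hpow : y₁ ^ m = algebraMap F F' (f * (t ^ a)⁻¹ ^ m) := by
    rw [hy₁, mul_pow, hyf, map_mul, map_pow, map_inv₀, map_zpow₀]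
  have hordy : (m : ℤ) * w.ord y = w.ramificationIndex F * ((m : ℤ) * a) := by
    rw [← Place.ord_pow, hyf, w.ord_restrict, ha]
  have hordy' : w.ord y = w.ramificationIndex F * a := by
    have hm' : (m : ℤ) ≠ 0 := by exact_mod_cast hm0
    apply mul_left_cancel₀ hm'
    rw [hordy]; ring
  have hord₁ : w.ord y₁ = 0 := by
    rw [hy₁, w.ord_mul hy0 (inv_ne_zero (zpow_ne_zero _ ht0')), w.ord_inv, w.ord_zpow, ht, hordy']
    ring
  have hmem₁ : y₁ ∈ w.toValuationSubring := (Place.mem_iff_ord_nonneg w hy₁0).2 hord₁.ge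
  have hcl := mem_wClosure_of_pow w hm hy₁0 hord₁ hpow (hres y₁ hmem₁)
  obtain ⟨z, hz⟩ := mem_range_of_mem_wClosure w he hcl
  refine ⟨z * t ^ a, ?_⟩
  rw [map_mul, hz, hy₁, map_zpow₀]
  field_simp

variable [HasPrincipalDivisors K F']

/-- **(DESC-A)(ii)**: a divisor `D` of `F` with `m • D` principal whose pull-back to `F'` is
principal is principal. -/
theorem isPrincipal_of_pullback [IsAlgClosed K]
    (he : Module.finrank F F' < 2 * w.ramificationIndex F)
    (hres : ∀ z ∈ w.toValuationSubring,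
      ∃ c : K, z = algebraMap K F' c ∨ 0 < w.ord (z - algebraMap K F' c))
    (hconst : ∀ z : F', z ≠ 0 → (∀ w' : Place K F', w'.ord z = 0) →
      z ∈ Set.range (algebraMap K F'))
    {m : ℕ} (hm : (m : K) ≠ 0) (D : Divisor K F) (hmD : Divisor.IsPrincipal (m • D))
    (hD' : Divisor.IsPrincipal (Divisor.pullback F' D)) : Divisor.IsPrincipal D := by
  have hm0 : m ≠ 0 := by
    rintro rfl
    simp at hm
  obtain ⟨f, hf0, hf⟩ := hmD
  obtain ⟨f', hf'0, hf'⟩ := hD'
  have hf0' : algebraMap F F' f ≠ 0 := by simpa using hf0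
  -- `f' ^ m / f` is constant
  have h1 : ∀ w' : Place K F', w'.ord (f' ^ m * (algebraMap F F' f)⁻¹) = 0 := by
    intro w'
    rw [w'.ord_mul (pow_ne_zero _ hf'0) (inv_ne_zero hf0'), w'.ord_inv, Place.ord_pow, ← hf' w',
      ← Divisor.pullback_apply_eq_ord hf w', map_nsmul]
    simp
  obtain ⟨c, hc⟩ := hconst _ (mul_ne_zero (pow_ne_zero _ hf'0) (inv_ne_zero hf0')) h1
  have hc0 : c ≠ 0 := by
    rintro rfl
    rw [map_zero] at hc
    exact mul_ne_zero (pow_ne_zero _ hf'0) (inv_ne_zero hf0') hc.symm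
  obtain ⟨c₁, hc₁⟩ := IsAlgClosed.exists_pow_nat_eq c (Nat.pos_of_ne_zero hm0)
  have hc₁0 : c₁ ≠ 0 := by
    rintro rfl
    rw [zero_pow hm0] at hc₁
    exact hc0 hc₁.symm
  have hc₁0' : algebraMap K F' c₁ ≠ 0 := by simpa using hc₁0
  set y : F' := f' * (algebraMap K F' c₁)⁻¹ with hy
  have hyf : y ^ m = algebraMap F F' f := by
    rw [hy, mul_pow, inv_pow, ← map_pow, hc₁, hc]
    field_simp
  have hdiv : (m : ℤ) ∣ (w.restrict F).ord f := by
    rw [← hf]
    exact ⟨D (w.restrict F), by simp⟩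
  obtain ⟨y₀, hy₀⟩ := mem_range_of_pow_mem w he hres hm hyf hdiv
  have hy₀f : y₀ ^ m = f := by
    apply (algebraMap F F').injective
    rw [map_pow, hy₀, hyf]
  have hy₀0 : y₀ ≠ 0 := by
    rintro rfl
    rw [zero_pow hm0] at hy₀f
    exact hf0 hy₀f.symm
  refine ⟨y₀, hy₀0, fun v => ?_⟩
  have h2 : (m : ℤ) * D v = (m : ℤ) * v.ord y₀ := by
    rw [← Place.ord_pow, hy₀f, ← hf v]
    simp
  exact mul_left_cancel₀ (by exact_mod_cast hm0) h2

end main

end Fermat.Agent.RED.Desc
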